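/-
ROW 37 (S43), block E0 / Q3 (helper192): the closed points of the model of level `M q` for a hub `LQ`
whose coordinate `x'` is NOT `j` (needed for `q = 3`, where only the hub with `x' = h₂` exists).
ABSTRACT PART.  The cusps are detected by a pair `s = 1 / j(z)`, `s' = 1 / j(q z)` with `CuspQ`, and the
only extra input is the alternative `CuspAlt`: a closed point `R` of the model either contains `s⁻¹`, `x`,
`y`, or `s ∈ rad R`.  The conclusions are those of `BAD/LevelQ/Pt/B/ExportDepth.lean` and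
`BAD/LevelQ/Pt/B/ExportPL.lean`, with `al x'` replaced by `s⁻¹`.
-/
import Fermat.Agent.BAD.LevelQ.Pt.B.ExportDepth
import Fermat.Agent.BAD.LevelQ.Pt.B.ExportPL

set_option autoImplicit false

noncomputable section

namespace Fermat.Agent.S43.E0.Q3

open Polynomial IntermediateField Fermat.Agent.S18 Fermat.Agent.S36.BP Fermat.Agent.BAD.Model
  Fermat.Agent.BAD.LevelQ Fermat.Agent.S44

variable {K₀ F' F : Type*} [Field K₀] [Field F'] [Field F] [Algebra K₀ F'] [Algebra K₀ F]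
variable {A₀ : ValuationSubring K₀} {ϖ₀ : K₀} {q : ℕ} {al be : F' →ₐ[K₀] F} {w : F ≃ₐ[K₀] F}
  {γ : F' →+* F'} {Ow' : ValuationSubring F'} {V : Fin 2 → ValuationSubring F} {x' : F'}
  {R : Subring F}
variable {x y s s' : F} {c : ℕ → ℕ → K₀}

/-- the alternative cusp / non cusp at the closed points of the model with coordinate `X`. -/
def CuspAlt (A₀ : ValuationSubring K₀) (ϖ₀ : K₀) (X x y s : F) : Prop :=
  ∀ R : Subring F, IsModelPt A₀ ϖ₀ X R → (s⁻¹ ∈ R ∧ x ∈ R ∧ y ∈ R) ∨ s ∈ rad R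

/-- the analogue of `LQ.cusp_or`. -/
theorem cusp_or [CharZero K₀] (hac : IsAlgClosed (IsLocalRing.ResidueField A₀))
    (H : LQ A₀ ϖ₀ q al be w γ Ow' V x') (C : CuspQ A₀ q V c s s')
    (hcusp : CuspAlt A₀ ϖ₀ (xx al be x') x y s)
    (hR : IsModelPt A₀ ϖ₀ (xx al be x') R) :
    (s⁻¹ ∈ R ∧ x ∈ R ∧ y ∈ R) ∨ (s ∈ rad R ∧ (Away R (V 0) ∨ Away R (V 1))) := by
  have hP : IsPt A₀ R := hR.isPt H.mChart hac
  rcases hcusp R hR with h | h
  · exact Or.inl h
  · exact Or.inr ⟨h, C.away H.prime.two_le hP h⟩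

/-- every closed point is a node or a smooth point. -/
theorem classify [CharZero K₀] (hac : IsAlgClosed (IsLocalRing.ResidueField A₀))
    (H : LQ A₀ ϖ₀ q al be w γ Ow' V x') (E : Eta (algebraMap K₀ F ϖ₀) V x y)
    (C : CuspQ A₀ q V c s s') (hcusp : CuspAlt A₀ ϖ₀ (xx al be x') x y s)
    (hfin : ∀ R, IsModelPt A₀ ϖ₀ (xx al be x') R → FinAt A₀ R)
    (hR : IsModelPt A₀ ϖ₀ (xx al be x') R) :
    Depth.IsNode A₀ ϖ₀ (V 0) (V 1) x y R ∨ (Depth.IsSm A₀ ϖ₀ (V 0) R ∧ Away R (V 1)) ∨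
      (Depth.IsSm A₀ ϖ₀ (V 1) R ∧ Away R (V 0)) := by
  have hB : PtBaseM A₀ ϖ₀ V R := hR.ptBaseM H.mChart
  have c01 : LeLoc R (V 0) → Away R (V 1) → Depth.IsSm A₀ ϖ₀ (V 0) R ∧ Away R (V 1) :=
    fun h0 a1 => ⟨H.isSm hac hR 0 h0 (fun i' hi' => by
      have : i' = 1 := by omega
      rw [this]; exact a1), a1⟩
  have c10 : LeLoc R (V 1) → Away R (V 0) → Depth.IsSm A₀ ϖ₀ (V 1) R ∧ Away R (V 0) :=
    fun h1 a0 => ⟨H.isSm hac hR 1 h1 (fun i' hi' => by
      have : i' = 0 := by omega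
      rw [this]; exact a0), a0⟩
  rcases hB.leLoc_or_away 0 with h0 | a0
  · rcases hB.leLoc_or_away 1 with h1 | a1
    · rcases cusp_or hac H C hcusp hR with ⟨-, hxR, hyR⟩ | ⟨-, hA⟩
      · exact Or.inl (H.isNode hac E hR hxR hyR h0 h1 (hfin R hR))
      · rcases hA with hA | hA
        · exact absurd hA (ExportDepth.not_away_of_leLoc h0)
        · exact absurd hA (ExportDepth.not_away_of_leLoc h1)
    · exact Or.inr (Or.inl (c01 h0 a1))
  · rcases hB.leLoc_or_away 1 with h1 | a1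
    · exact Or.inr (Or.inr (c10 h1 a0))
    · exact absurd (Fin.forall_fin_two.2 ⟨a0, a1⟩) hB.not_all_away

/-- **EXPORT**: the nodal model at `e = 1`, with the tautological sets of points. -/
theorem nodalModel [CharZero K₀] (hac : IsAlgClosed (IsLocalRing.ResidueField A₀))
    (H : LQ A₀ ϖ₀ q al be w γ Ow' V x') (E : Eta (algebraMap K₀ F ϖ₀) V x y)
    (C : CuspQ A₀ q V c s s') (hcusp : CuspAlt A₀ ϖ₀ (xx al be x') x y s)
    (hfin : ∀ R, IsModelPt A₀ ϖ₀ (xx al be x') R → FinAt A₀ R) :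
    Depth.NodalModel A₀ ϖ₀ 1 (V 0) (V 1) x y {R | Depth.IsSm A₀ ϖ₀ (V 0) R}
      {R | Depth.IsSm A₀ ϖ₀ (V 1) R} {R | Depth.IsNode A₀ ϖ₀ (V 0) (V 1) x y R} where
  unifA := H.vert'.unif₀
  unifi := H.unif_all 0
  unif0 := H.unif_all 1
  consti := H.complete.const_mem 0
  const0 := H.complete.const_mem 1
  e_pos := one_pos
  xy := ⟨ϖ₀, by simp, E.mul_eq⟩
  x_i := E.x_unit
  y_0 := E.y_unit
  smi := fun _ h => h
  sm0 := fun _ h => h
  nd := fun _ h => h
  regi := fun f hf h => H.mChart.const_of_regular hac 0 hf (fun R hR hL => h R (by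
    rcases classify hac H E C hcusp hfin hR with hn | ⟨hs, -⟩ | ⟨-, ha⟩
    · exact Or.inr hn
    · exact Or.inl hs
    · exact absurd ha (ExportDepth.not_away_of_leLoc hL)))
  reg0 := fun f hf h => H.mChart.const_of_regular hac 1 hf (fun R hR hL => h R (by
    rcases classify hac H E C hcusp hfin hR with hn | ⟨-, ha⟩ | ⟨hs, -⟩
    · exact Or.inr hn
    · exact absurd ha (ExportDepth.not_away_of_leLoc hL)
    · exact Or.inl hs))

theorem not_mem_of_mem_rad {VV : ValuationSubring F} (hd : Dominates VV R) (hs0 : s ≠ 0)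
    (hs : s ∈ rad R) : s⁻¹ ∉ VV := by
  intro h
  have h3 := hd.2 _ hs
  have h4 := (VV.valuation_le_one_iff _).2 h
  have h5 : VV.valuation (s * s⁻¹) < 1 := by
    rw [map_mul]
    exact mul_lt_one_of_lt_of_le h3 h4
  rw [mul_inv_cancel₀ hs0, map_one] at h5
  exact lt_irrefl _ h5

/-- the analogue of `LQ.exists_point_depth`. -/
theorem exists_point_depth [CharZero K₀] (hac : IsAlgClosed (IsLocalRing.ResidueField A₀))
    (H : LQ A₀ ϖ₀ q al be w γ Ow' V x') (E : Eta (algebraMap K₀ F ϖ₀) V x y)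
    (C : CuspQ A₀ q V c s s') (hcusp : CuspAlt A₀ ϖ₀ (xx al be x') x y s)
    (hfin : ∀ R, IsModelPt A₀ ϖ₀ (xx al be x') R → FinAt A₀ R)
    (VV : ValuationSubring F) (hA : ∀ a ∈ A₀, algebraMap K₀ F a ∈ VV) (hle : VV ≤ V 0)
    (hne : VV ≠ V 0) :
    ∃ R : Subring F, IsModelPt A₀ ϖ₀ (xx al be x') R ∧ Dominates VV R ∧
      (s⁻¹ ∈ VV →
        Depth.IsNode A₀ ϖ₀ (V 0) (V 1) x y R ∨ (Depth.IsSm A₀ ϖ₀ (V 0) R ∧ RUnit R x)) ∧
      (s⁻¹ ∉ VV → Depth.IsSm A₀ ϖ₀ (V 0) R) := by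
  obtain ⟨R, hR, hd⟩ := H.mChart.proper VV hA 0 hle hne
  have hB : PtBaseM A₀ ϖ₀ V R := hR.ptBaseM H.mChart
  have hL0 : LeLoc R (V 0) := hB.leLoc_of_dominates hle hd
  refine ⟨R, hR, hd, ?_⟩
  rcases cusp_or hac H C hcusp hR with ⟨h1, hxR, hyR⟩ | ⟨hs, hA'⟩
  · refine ⟨fun _ => ?_, fun h => absurd (hd.1 _ h1) h⟩
    rcases classify hac H E C hcusp hfin hR with hn | ⟨hs, ha⟩ | ⟨-, ha⟩
    · exact Or.inl hn
    · exact Or.inr ⟨hs, hB.runit_x E hxR hyR ha⟩
    · exact absurd ha (ExportDepth.not_away_of_leLoc hL0)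
  · refine ⟨fun h => absurd h (not_mem_of_mem_rad hd C.ne hs), fun _ => ?_⟩
    have a1 : Away R (V 1) := hA'.resolve_left (ExportDepth.not_away_of_leLoc hL0)
    exact H.isSm hac hR 0 hL0 (fun i' hi' => by
      have : i' = 1 := by omega
      rw [this]; exact a1)

/-- the analogue of `LQ.classify_zero` (export to `S44/X/PL`). -/
theorem classify_zero [CharZero K₀] (hac : IsAlgClosed (IsLocalRing.ResidueField A₀))
    (H : LQ A₀ (q : K₀) q al be w γ Ow' V x')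
    (E : Eta (q : F) V x y) (C : CuspQ A₀ q V c s s')
    (hcusp : CuspAlt A₀ (q : K₀) (xx al be x') x y s)
    (hR : IsModelPt A₀ (q : K₀) (xx al be x') R) (h0 : ∀ r ∈ R, r ∈ V 0) :
    (s⁻¹ ∈ R ∧ (PL.IsNode A₀ q R (V 0) (V 1) x y ∨ (PL.IsSmooth A₀ q R (V 0) ∧ RUnit R x))) ∨
      (s ∈ rad R ∧ PL.IsSmooth A₀ q R (V 0)) := by
  have hpt : IsPt A₀ R := hR.isPt H.mChart hac
  have hB : PtBaseM A₀ (q : K₀) V R := hR.ptBaseM H.mChart
  have hU := H.unif_all
  have E' : Eta (algebraMap K₀ F (q : K₀)) V x y := by rw [map_natCast]; exact E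
  have hT0 : Through R (V 0) := H.through hac hR 0 (hB.leLoc_of_le h0)
  have hnA0 : ¬ Away R (V 0) := by
    rintro ⟨e, he, hlt⟩
    exact absurd hlt (he.val_eq_one h0).not_lt
  have hsm : Away R (V 1) → PL.IsSmooth A₀ q R (V 0) := fun hA =>
    { pt := hpt
      thr := hT0
      unif := H.unifF 0
      princ := fun r hr hv => by
        have := hB.princ_smooth hU 0 (fun c' hc' => by
          have : c' = 1 := by omega
          rw [this]; exact hA) r hr hv
        rwa [map_natCast] at this }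
  rcases cusp_or hac H C hcusp hR with ⟨h1, hxR, hyR⟩ | ⟨hs, hA⟩
  · left
    refine ⟨h1, ?_⟩
    rcases hB.leLoc_or_away 1 with hL | hA
    · left
      exact
        { pt := hpt
          thr_a := hT0
          thr_b := H.through hac hR 1 hL
          unif_a := H.unifF 0
          unif_b := H.unifF 1
          x_mem := hxR
          y_mem := hyR
          mul_eq := E.mul_eq
          x_unit := E.x_unit
          y_unit := E.y_unit
          princ_a := hB.princ_zero hU E' hxR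
          princ_b := hB.princ_one hU E' hyR }
    · right
      exact ⟨hsm hA, hB.runit_x E' hxR hyR hA⟩
  · right
    exact ⟨hs, hsm (hA.resolve_left hnA0)⟩

/-- the analogue of `LQ.exists_point` (export to `S44/X/PL`). -/
theorem exists_point [CharZero K₀] (hac : IsAlgClosed (IsLocalRing.ResidueField A₀))
    (H : LQ A₀ (q : K₀) q al be w γ Ow' V x')
    (E : Eta (q : F) V x y) (C : CuspQ A₀ q V c s s')
    (hcusp : CuspAlt A₀ (q : K₀) (xx al be x') x y s)
    (VV : ValuationSubring F) (hA : ∀ a ∈ A₀, algebraMap K₀ F a ∈ VV) (hle : VV ≤ V 0)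
    (hne : VV ≠ V 0) :
    ∃ R : Subring F, IsModelPt A₀ (q : K₀) (xx al be x') R ∧ Dominates VV R ∧
      (s⁻¹ ∈ VV →
        PL.IsNode A₀ q R (V 0) (V 1) x y ∨ (PL.IsSmooth A₀ q R (V 0) ∧ RUnit R x)) ∧
      (s⁻¹ ∉ VV → PL.IsSmooth A₀ q R (V 0)) := by
  obtain ⟨R, hR, hd⟩ := H.mChart.proper VV hA 0 hle hne
  refine ⟨R, hR, hd, ?_⟩
  rcases classify_zero hac H E C hcusp hR (fun r hr => hle (hd.1 r hr)) with ⟨h1, h2⟩ | ⟨h1, h2⟩
  · exact ⟨fun _ => h2, fun h => absurd (hd.1 _ h1) h⟩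
  · exact ⟨fun h => absurd h (not_mem_of_mem_rad hd C.ne h1), fun _ => h2⟩

end Fermat.Agent.S43.E0.Q3

end
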