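/-
Row 37 (S43), block E0, sub-block Q3, leaf (L2) (helper30): `CuspQ` for `j` on a hub `LQ` whose coordinate
`x'` is NOT `j` but satisfies `j x' = (1 + 256 x') ^ 3` (`x' = h₂`, needed at `q = 3`).

`Rel` = the modular equation of `j` (`Mod.exists_rel_j`, every prime `q`); Kronecker's congruences for `j`
follow from `LQ.kron` (valid for every `f ∈ Ow'`), `γ j = j` (from `γ x' = x'`) and `|j| = 1`
(`x'` has transcendental reduction).
-/
import Fermat.Agent.BAD.LevelQ.Pt.B.CuspOfRel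
import Fermat.Agent.BAD.LevelQ.Mod.CuspQ

set_option autoImplicit false

noncomputable section

namespace Fermat.Agent.S43.E0.Q3

open Polynomial IntermediateField Fermat.Agent.S18 Fermat.Agent.S36.BP Fermat.Agent.BAD.Model
  Fermat.Agent.BAD.LevelQ

section Abs

variable {K₀ F' F : Type*} [Field K₀] [Field F'] [Field F] [Algebra K₀ F'] [Algebra K₀ F]
variable {A₀ : ValuationSubring K₀} {ϖ₀ : K₀} {q : ℕ} {al be : F' →ₐ[K₀] F} {w : F ≃ₐ[K₀] F}
  {γ : F' →+* F'} {Ow' : ValuationSubring F'} {V : Fin 2 → ValuationSubring F} {x' j' : F'}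
variable {c : ℕ → ℕ → K₀}

/-- The relation between the coordinate `x' = h₂` and `j' = j`: `j h₂ = (1 + 256 h₂) ^ 3`. -/
def JH (x' j' : F') : Prop := j' * x' = (1 + 256 * x') ^ 3

theorem JH.map_hom {L : Type*} [Field L] (h : JH x' j') (f : F' →+* L) : JH (f x') (f j') := by
  have := congrArg f h
  simpa [JH, map_mul, map_pow, map_add, map_one, map_ofNat] using this

theorem cuspJ_const_mem (H : LQ A₀ ϖ₀ q al be w γ Ow' V x') (a : K₀) (ha : a ∈ A₀) :
    algebraMap K₀ F' a ∈ Ow' := by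
  rw [← H.comap_al, AlgHom.commutes]
  exact H.complete.const_mem 0 a ha

/-- `|j| = 1` for the Gauss valuation of level `M`. -/
theorem cuspJ_val (H : LQ A₀ ϖ₀ q al be w γ Ow' V x') (hj : JH x' j') :
    Ow'.valuation j' = 1 := by
  have hx := H.isMCoord'
  have h1 : Ow'.valuation (aeval x' (C (256 : K₀) * X + 1 : K₀[X])) = 1 := by
    refine hx.valuation_aeval_eq_one (cuspJ_const_mem H) (fun i => ?_) ⟨0, by simp⟩
    rcases i with _ | _ | i
    · simp [A₀.one_mem]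
    · simp [coeff_one]
    · simp [coeff_one, A₀.zero_mem]
  have h2 : aeval x' (C (256 : K₀) * X + 1 : K₀[X]) = 1 + 256 * x' := by
    rw [map_add, map_mul, aeval_C, aeval_X, map_one, map_ofNat, add_comm]
  rw [h2] at h1
  have h3 := congrArg Ow'.valuation hj
  rwa [map_mul, hx.valuation_eq_one, mul_one, map_pow, h1, one_pow] at h3

theorem cuspJ_ne_zero (H : LQ A₀ ϖ₀ q al be w γ Ow' V x') (hj : JH x' j') : j' ≠ 0 := by
  intro h
  have := cuspJ_val H hj
  rw [h, map_zero] at this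
  exact zero_ne_one this

theorem cuspJ_mem (H : LQ A₀ ϖ₀ q al be w γ Ow' V x') (hj : JH x' j') : j' ∈ Ow' :=
  (Ow'.valuation_le_one_iff _).1 (cuspJ_val H hj).le

/-- `γ j = j`. -/
theorem cuspJ_γ (H : LQ A₀ ϖ₀ q al be w γ Ow' V x') (hj : JH x' j') : γ j' = j' := by
  have h1 : JH (γ x') (γ j') := hj.map_hom γ
  rw [H.γ_x] at h1
  unfold JH at h1 hj
  exact mul_right_cancel₀ H.isMCoord'.ne_zero (h1.trans hj.symm)

theorem cuspJ_val_al (H : LQ A₀ ϖ₀ q al be w γ Ow' V x') (hj : JH x' j') :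
    (V 0).valuation (al j') = 1 := by
  have h := cuspJ_val H hj
  have h2 : j'⁻¹ ∈ Ow' := (Ow'.valuation_le_one_iff _).1 (by rw [map_inv₀, h, inv_one])
  have h3 : (V 0).valuation (al j') ≤ 1 :=
    ((V 0).valuation_le_one_iff _).2 ((H.comap_al _).2 (cuspJ_mem H hj))
  have h4 : (V 0).valuation (al j'⁻¹) ≤ 1 := ((V 0).valuation_le_one_iff _).2 ((H.comap_al _).2 h2)
  refine le_antisymm h3 ?_
  rw [map_inv₀, map_inv₀] at h4
  by_contra hlt
  have hne : (V 0).valuation (al j') ≠ 0 :=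
    (_root_.map_ne_zero _).2 ((_root_.map_ne_zero al).2 (cuspJ_ne_zero H hj))
  exact absurd h4 (not_le.2 ((one_lt_inv₀ (zero_lt_iff.2 hne)).2 (not_le.1 hlt)))

/-- `1/j(z)^q ≡ 1/j(q z)` on the component `V 0`. -/
theorem cuspJ_cong0 (H : LQ A₀ ϖ₀ q al be w γ Ow' V x') (hj : JH x' j') :
    (V 0).valuation ((al j')⁻¹ ^ q / (be j')⁻¹ - 1) < 1 := by
  have h1 := H.kron j' (cuspJ_mem H hj)
  rw [cuspJ_γ H hj] at h1
  have ha : (V 0).valuation (al j') = 1 := cuspJ_val_al H hj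
  have ha0 : al j' ≠ 0 := (_root_.map_ne_zero al).2 (cuspJ_ne_zero H hj)
  have e : (al j')⁻¹ ^ q / (be j')⁻¹ - 1 = (be j' - al j' ^ q) * (al j' ^ q)⁻¹ := by
    have := pow_ne_zero q ha0
    rw [div_inv_eq_mul, inv_pow]
    field_simp
  rw [e, map_mul, map_inv₀, map_pow, ha, one_pow, inv_one, mul_one]
  exact h1

/-- `1/j(q z)^q ≡ 1/j(z)` on the component `V 1`. -/
theorem cuspJ_cong1 (H : LQ A₀ ϖ₀ q al be w γ Ow' V x') (hj : JH x' j') :
    (V 1).valuation ((be j')⁻¹ ^ q / (al j')⁻¹ - 1) < 1 := by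
  rw [H.val_one_lt]
  have e : w ((be j')⁻¹ ^ q / (al j')⁻¹ - 1) = (al j')⁻¹ ^ q / (be j')⁻¹ - 1 := by
    rw [map_sub, map_div₀, map_pow, map_inv₀, map_inv₀, H.w_be, H.w_al, map_one]
  rw [e]
  exact cuspJ_cong0 H hj

/-- **`CuspQ` for `j'`** from the modular equation of `j'` and a hub with coordinate `x'`. -/
theorem cuspQ_of_JH (H : LQ A₀ ϖ₀ q al be w γ Ow' V x') (hj : JH x' j')
    (hc : ∀ a b, c a b ∈ A₀) (h0 : A₀.valuation (c 0 0) = 1)
    (hrel : Rel q c (al j')⁻¹ (be j')⁻¹) : CuspQ A₀ q V c (al j')⁻¹ (be j')⁻¹ where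
  coeff_mem := hc
  coeff_unit := h0
  ne := inv_ne_zero ((_root_.map_ne_zero al).2 (cuspJ_ne_zero H hj))
  ne' := inv_ne_zero ((_root_.map_ne_zero be).2 (cuspJ_ne_zero H hj))
  rel := hrel
  cong0 := cuspJ_cong0 H hj
  cong1 := cuspJ_cong1 H hj

end Abs

section Conc

open ModularCurve Fermat.Agent.S24 Fermat.Agent.S18.Vert Fermat.Agent.S18.Descent
  Fermat.Agent.S36.Mod Fermat.Agent.BAD.LevelQ.Mod

variable {K : Type*} [Field K] [Algebra ℚ K] {M q : ℕ} [NeZero M] [NeZero q]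

/-- **(L2)** `CuspQ` for `j` on any hub at level `M q` whose coordinate `x'` satisfies
`j x' = (1 + 256 x') ^ 3`. -/
theorem exists_cuspQ_j {A₀ : ValuationSubring K} {ϖ₀ : K} {w : FK K (M * q) ≃ₐ[K] FK K (M * q)}
    {γ : FK K M →+* FK K M} {Ow' : ValuationSubring (FK K M)}
    {V : Fin 2 → ValuationSubring (FK K (M * q))} {x' : FK K M}
    (H : LQ A₀ ϖ₀ q (al K M q) (be K M q) w γ Ow' V x') (hj : JH x' (jK K M)) :
    ∃ c : ℕ → ℕ → K, CuspQ A₀ q V c (al K M q (jK K M))⁻¹ (be K M q (jK K M))⁻¹ := by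
  obtain ⟨c', h0, hrel⟩ := exists_rel_j (K := K) (M := M) H.prime
  refine ⟨fun a b => ((c' a b : ℤ) : K), cuspQ_of_JH H hj (fun a b => intCast_mem A₀ _) ?_ hrel⟩
  show A₀.valuation ((c' 0 0 : ℤ) : K) = 1
  rw [h0]
  simp

end Conc

end Fermat.Agent.S43.E0.Q3

end
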