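/-
ROW 37 (S43), block E0, node MODELO / Q3 (helper192).  THE REGULAR MODEL OF `X₀(M q)`, `4 ∣ M`, OVER THE RING OF INTEGERS
`A0 A` OF THE INERTIA FIELD `K0 A` (`A ∣ q`), FOR EVERY ODD PRIME `q ∤ M` (no `5 ≤ q`).

* `exists_hub_odd` : a hub `LQ` (coordinate `j` for `q ≥ 5`, `h₂` for `q = 3`) with the cusp dichotomy `Three.CuspDich` for
  the eta units `x = unitK isW1_G4 ..`, `y = yK isW1_G4 ..`;
* `exists_hub_away` : the shape asked by the block `(O)`: hub + `Eta` + at every closed point `R` of the model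
  `(x ∈ R ∧ y ∈ R) ∨ Away R (V 0) ∨ Away R (V 1)`;
* `ModelO q M' hc4 hc A`, `modelO_odd` : ONE Prop, free of the hub: a coordinate `z` with `MChart`, the eta units, every closed
  point `R` (`IsModelPt`) is `IsPt`, `PtBaseM`, `FinAt` and a node or a smooth point of exactly one component, and
  `Depth.NodalModel` holds with the tautological sets of points.
-/
import Fermat.Agent.S43.E0.Three.Inst

set_option autoImplicit false
set_option linter.unusedSectionVars false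

noncomputable section

namespace Fermat.Agent.S43.E0.Q3

open ModularCurve AlgebraicCurve Fermat.Agent.S24 Fermat.Agent.S18 Fermat.Agent.S36.Mod
  Fermat.Agent.BAD.LevelQ Fermat.Agent.BAD.LevelQ.Mod Fermat.Agent.Lib.EtaUnit
  Fermat.Agent.Lib.InertiaField Fermat.Agent.S36.BP Fermat.Agent.S44.X Fermat.Agent.S44.X.Model
  Fermat.Agent.S28.Export Fermat.Agent.S44.Depth.Inst Fermat.Agent.S44

section Abs

variable {K₀ F' F : Type*} [Field K₀] [Field F'] [Field F] [Algebra K₀ F'] [Algebra K₀ F]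
variable {A₀ : ValuationSubring K₀} {ϖ₀ : K₀} {q : ℕ} {al be : F' →ₐ[K₀] F} {w : F ≃ₐ[K₀] F}
  {γ : F' →+* F'} {Ow' : ValuationSubring F'} {V : Fin 2 → ValuationSubring F} {x' : F'}
variable {x y : F} {c : ℕ → ℕ → K₀}

/-- the cusp dichotomy of `S43/E0/Three` for a hub whose coordinate is `j`. -/
theorem cuspDich_of_cuspQ [CharZero K₀] (hac : IsAlgClosed (IsLocalRing.ResidueField A₀))
    (H : LQ A₀ ϖ₀ q al be w γ Ow' V x') (hx : x ∈ ch₁ A₀ al be x') (hy : y ∈ ch₁ A₀ al be x')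
    (C : CuspQ A₀ q V c (al x')⁻¹ (be x')⁻¹) :
    Three.CuspDich A₀ ϖ₀ V (xx al be x') (al x') x y := by
  intro R hR
  rcases H.cusp_or hac C hR with h | h
  · exact Or.inl ⟨h _ (H.al_mem_ch₁ (self_mem_chart _)), h x hx, h y hy⟩
  · exact Or.inr h

end Abs

section Hub

variable {q M : ℕ} [NeZero q] [NeZero M] {A : ValuationSubring S44.Qb}

theorem exists_hub_five [IsDiscreteValuationRing (A0 A)] (hq : q.Prime) (h5 : 5 ≤ q)
    (hA : A.LiesOverPrime q) (hc4 : Nat.Coprime q 4) (h4 : 4 ∣ M) (hc : M.Coprime q)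
    (hN : 4 * q ∣ M * q) :
    ∃ (γ : FK (K0 A) M →+* FK (K0 A) M) (x' : FK (K0 A) M) (J : FK (K0 A) (M * q)),
      LQ (A0 A) (q : K0 A) q (al (K0 A) M q) (be (K0 A) M q) (ww (K0 A) hc) γ (Og (A0 A) M)
        (VV (A0 A) hc) x' ∧
      Three.CuspDich (A0 A) (q : K0 A) (VV (A0 A) hc) (xx (al (K0 A) M q) (be (K0 A) M q) x') J
        (unitK isW1_G4 q (M * q) hc4 hN (K0 A)) (yK isW1_G4 hc4 hN (K0 A)) := by
  obtain ⟨D, -, hDbar⟩ := S34.Nodal.Inst.Base.exists_baseData_j M q hq h5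
  obtain ⟨γ₀, -, H⟩ := lq_inertia A hq hA hc D (beInt_j D hDbar)
  rw [xK_eq_jK (K0 A) hDbar] at H
  obtain ⟨c, C⟩ := exists_cuspQ H
  have hac := isAlgClosed_residueField_A0 A q hq hA
  exact ⟨_, _, _, H, cuspDich_of_cuspQ hac H (x_mem_ch₁ isW1_G4 hc4 h4 hc hN H)
    (y_mem_ch₁ isW1_G4 hc4 h4 hc hN H) C⟩

theorem exists_hub_three [IsDiscreteValuationRing (A0 A)] (hq : q.Prime) (h3 : q = 3)
    (hA : A.LiesOverPrime q) (hc4 : Nat.Coprime q 4) (h4 : 4 ∣ M) (hc : M.Coprime q)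
    (hN : 4 * q ∣ M * q) :
    ∃ (γ : FK (K0 A) M →+* FK (K0 A) M) (x' : FK (K0 A) M) (J : FK (K0 A) (M * q)),
      LQ (A0 A) (q : K0 A) q (al (K0 A) M q) (be (K0 A) M q) (ww (K0 A) hc) γ (Og (A0 A) M)
        (VV (A0 A) hc) x' ∧
      Three.CuspDich (A0 A) (q : K0 A) (VV (A0 A) hc) (xx (al (K0 A) M q) (be (K0 A) M q) x') J
        (unitK isW1_G4 q (M * q) hc4 hN (K0 A)) (yK isW1_G4 hc4 hN (K0 A)) := by
  subst h3
  have h2 : 2 ∣ M := Dvd.dvd.trans (by norm_num) h4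
  obtain ⟨D, hX, hDbar⟩ := S34.Nodal.Inst.Base.exists_baseData_h2 M h2
  have hB : S34.Nodal.Inst.BaseOK M 3 (D.xK Kbar) := by
    rw [hDbar]
    exact S34.Nodal.Inst.Ord.baseOK_h2 hq h2 (by norm_num)
  obtain ⟨γ₀, -, H⟩ := lq_inertia A hq hA hc D (beInt_of_baseOK D hB)
  have hj := Three.jK_mul_xK (K0 A) hX
  have h256 : (A0 A).valuation (256 : K0 A) = 1 := Three.val_256 (by simpa using H.char)
  obtain ⟨c', h0, hrel⟩ := exists_rel_j (K := K0 A) (M := M) hq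
  have C := Three.cuspQ_j H (a := 256) ((ValuationSubring.valuation_le_one_iff _ _).1 h256.le)
    (by rw [map_ofNat, map_ofNat]) hj (fun a b => intCast_mem (A0 A) _)
    (by rw [h0]; simp) hrel
  have hac := isAlgClosed_residueField_A0 A 3 hq hA
  exact ⟨_, _, _, H, Three.cuspDich hac H h256 hj C
    (Three.x_mem_VV isW1_G4 hc4 h4 hc hN) (Three.y_mem_VV isW1_G4 hc4 h4 hc hN)
    (Three.x_mem_top isW1_G4 hc4 hN) (Three.y_mem_top isW1_G4 hc4 hN)⟩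

/-- **The hub with the cusp dichotomy, for every odd prime `q ∤ M`, `4 ∣ M`.** -/
theorem exists_hub_odd [IsDiscreteValuationRing (A0 A)] (hq : q.Prime) (hq2 : q ≠ 2)
    (hA : A.LiesOverPrime q) (hc4 : Nat.Coprime q 4) (h4 : 4 ∣ M) (hc : M.Coprime q)
    (hN : 4 * q ∣ M * q) :
    ∃ (γ : FK (K0 A) M →+* FK (K0 A) M) (x' : FK (K0 A) M) (J : FK (K0 A) (M * q)),
      LQ (A0 A) (q : K0 A) q (al (K0 A) M q) (be (K0 A) M q) (ww (K0 A) hc) γ (Og (A0 A) M)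
        (VV (A0 A) hc) x' ∧
      Three.CuspDich (A0 A) (q : K0 A) (VV (A0 A) hc) (xx (al (K0 A) M q) (be (K0 A) M q) x') J
        (unitK isW1_G4 q (M * q) hc4 hN (K0 A)) (yK isW1_G4 hc4 hN (K0 A)) := by
  by_cases h3 : q = 3
  · exact exists_hub_three hq h3 hA hc4 h4 hc hN
  · refine exists_hub_five hq ?_ hA hc4 h4 hc hN
    have h2 := hq.two_le
    by_contra hlt
    have : q = 4 := by omega
    subst this
    exact absurd hq (by norm_num)

/-- the eta units (no hub needed). -/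
theorem eta_odd [IsDiscreteValuationRing (A0 A)] (hc4 : Nat.Coprime q 4) (h4 : 4 ∣ M)
    (hc : M.Coprime q) (hN : 4 * q ∣ M * q) :
    Eta (algebraMap (K0 A) (FK (K0 A) (M * q)) (q : K0 A)) (VV (A0 A) hc)
      (unitK isW1_G4 q (M * q) hc4 hN (K0 A)) (yK isW1_G4 hc4 hN (K0 A)) := by
  rw [map_natCast]
  exact etaW1 isW1_G4 hc4 h4 hc hN (A₀ := A0 A) (K := K0 A)

/-- **The shape consumed by the block `(O)`.** -/
theorem exists_hub_away [IsDiscreteValuationRing (A0 A)] (hq : q.Prime) (hq2 : q ≠ 2)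
    (hA : A.LiesOverPrime q) (hc4 : Nat.Coprime q 4) (h4 : 4 ∣ M) (hc : M.Coprime q)
    (hN : 4 * q ∣ M * q) :
    ∃ (γ : FK (K0 A) M →+* FK (K0 A) M) (x' : FK (K0 A) M),
      LQ (A0 A) (q : K0 A) q (al (K0 A) M q) (be (K0 A) M q) (ww (K0 A) hc) γ (Og (A0 A) M)
        (VV (A0 A) hc) x' ∧
      Eta (algebraMap (K0 A) (FK (K0 A) (M * q)) (q : K0 A)) (VV (A0 A) hc)
        (unitK isW1_G4 q (M * q) hc4 hN (K0 A)) (yK isW1_G4 hc4 hN (K0 A)) ∧
      ∀ R : Subring (FK (K0 A) (M * q)),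
        IsModelPt (A0 A) (q : K0 A) (xx (al (K0 A) M q) (be (K0 A) M q) x') R →
        (unitK isW1_G4 q (M * q) hc4 hN (K0 A) ∈ R ∧ yK isW1_G4 hc4 hN (K0 A) ∈ R) ∨
          Away R (VV (A0 A) hc 0) ∨ Away R (VV (A0 A) hc 1) := by
  obtain ⟨γ, x', J, H, CD⟩ := exists_hub_odd hq hq2 hA hc4 h4 hc hN
  refine ⟨γ, x', H, eta_odd hc4 h4 hc hN, fun R hR => ?_⟩
  rcases CD R hR with ⟨-, hx, hy⟩ | ⟨-, h⟩
  · exact Or.inl ⟨hx, hy⟩
  · exact Or.inr h

end Hub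

/-- **The regular model of `X₀(4 M' q)` over `A0 A`, in the language of closed points.** -/
def ModelO (q M' : ℕ) [NeZero q] [NeZero M'] (hc4 : Nat.Coprime q 4) (hc : (M' * 4).Coprime q)
    (A : ValuationSubring S44.Qb) [IsDiscreteValuationRing (A0 A)] : Prop :=
  ∃ z x₀ y₀ : FK (K0 A) (M' * 4 * q),
    MChart (A0 A) (q : K0 A) (VV (A0 A) hc) z ∧
    bcK (K0 A) (M' * 4 * q) x₀ = xU q M' hc4 ∧
    Eta (algebraMap (K0 A) (FK (K0 A) (M' * 4 * q)) (q : K0 A)) (VV (A0 A) hc) x₀ y₀ ∧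
    (∀ R : Subring (FK (K0 A) (M' * 4 * q)), IsModelPt (A0 A) (q : K0 A) z R →
      IsPt (A0 A) R ∧ PtBaseM (A0 A) (q : K0 A) (VV (A0 A) hc) R ∧ FinAt (A0 A) R ∧
      (Depth.IsNode (A0 A) (q : K0 A) (VV (A0 A) hc 0) (VV (A0 A) hc 1) x₀ y₀ R ∨
        (Depth.IsSm (A0 A) (q : K0 A) (VV (A0 A) hc 0) R ∧ Away R (VV (A0 A) hc 1)) ∨
        (Depth.IsSm (A0 A) (q : K0 A) (VV (A0 A) hc 1) R ∧ Away R (VV (A0 A) hc 0)))) ∧
    Depth.NodalModel (A0 A) (q : K0 A) 1 (VV (A0 A) hc 0) (VV (A0 A) hc 1) x₀ y₀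
      {R | Depth.IsSm (A0 A) (q : K0 A) (VV (A0 A) hc 0) R}
      {R | Depth.IsSm (A0 A) (q : K0 A) (VV (A0 A) hc 1) R}
      {R | Depth.IsNode (A0 A) (q : K0 A) (VV (A0 A) hc 0) (VV (A0 A) hc 1) x₀ y₀ R}

/-- **`ModelO` for every odd prime `q ∤ M'`.** -/
theorem modelO_odd {q M' : ℕ} [NeZero q] [NeZero M'] {A : ValuationSubring S44.Qb}
    [IsDiscreteValuationRing (A0 A)] (hq : q.Prime) (hq2 : q ≠ 2)
    (hA : A.LiesOverPrime q) (hc4 : Nat.Coprime q 4) (hc : (M' * 4).Coprime q) :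
    ModelO q M' hc4 hc A := by
  have hN : 4 * q ∣ M' * 4 * q := ⟨M', by ring⟩
  have h4 : 4 ∣ M' * 4 := Dvd.intro_left M' rfl
  obtain ⟨γ, x', J, H, CD⟩ := exists_hub_odd hq hq2 hA hc4 h4 hc hN
  have hac := isAlgClosed_residueField_A0 A q hq hA
  have hfin := nodeFinD q A hq hA (M' * 4 * q) _ _ H.mChart
  have E' := eta_odd (A := A) hc4 h4 hc hN
  refine ⟨_, unitK isW1_G4 q (M' * 4 * q) hc4 hN (K0 A), yK isW1_G4 hc4 hN (K0 A), H.mChart,
    baseChangeMap_unitK isW1_G4 q (M' * 4 * q) hc4 hN _, E', fun R hR => ?_,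
    Three.nodalModel hac H E' CD hfin⟩
  exact ⟨hR.isPt H.mChart hac, hR.ptBaseM H.mChart, hfin R hR, Three.classify hac H E' CD hfin hR⟩

end Fermat.Agent.S43.E0.Q3

end
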